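import Fermat.Agent.S25.DefsDict
import Fermat.Prelude.Def_AlgebraicCurve_DivisorClassGroup
import Fermat.Prelude.Def_AlgebraicCurve_IsCurveOver
import Fermat.Prelude.Def_AlgebraicCurve_Repartitions
import Fermat.Prelude.Def_GoodReductionJacobian_RelativeGroupLawKernel

/-!
# Row S27 (torsion of `Pic⁰` of a function field): frozen interface (architect helper87)

S27 : for the function field `F` of a curve over an algebraically closed field `K` of
characteristic `0`, `#Pic⁰(F)[ℓ^k] = ℓ^(2 g k)`, `g = genusFF K F`.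

Route: `F` is the function field of a smooth proper curve `C` with a two-chart presentation
(`S25.ChartOf`); S25 (a hypothesis here) gives its Jacobian `J`; the tensor product of gluing
data gives the group law of `J`; the tangent space at `0` is `Ȟ¹(O)`, so `J` has relative
dimension `g`; `J(K) = Pic⁰(F)` as groups; S26 (a hypothesis here) counts the torsion.

Only definitions here.  Blueprint: `coord/S27.md` (origin/helper87).  Glue: `Top.lean`.
-/

set_option autoImplicit false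
universe u
open CategoryTheory CategoryTheory.Limits AlgebraicGeometry AlgebraicGeometry.RelPicard
  NeronModelInfra GoodReductionJacobian AlgebraicCurve
open scoped TensorProduct

namespace Fermat.Agent.S27

open Fermat.Agent.S25

noncomputable section

/-! ## The two frozen statements used as hypotheses -/

/-- The statement of S25 (verbatim), as a hypothesis. -/
def S25Stmt : Prop :=
  ∀ (k : Type u) [Field k] [IsAlgClosed k] {C : Scheme.{u}} (c : C ⟶ Spec (CommRingCat.of k))
    [IsProper c] [SmoothOfRelativeDimension 1 c] [IsIntegral C]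
    (ε : SchemeHomOver (𝟙 (Spec (CommRingCat.of k))) c),
    ∃ D : RelativePic0Designation k c,
      Nonempty (RepresentsRelSubPic c ε (algEquivZeroCut c ε) D) ∧
        Smooth D.toBase ∧ IsProper D.toBase ∧ GeometricallyConnected D.toBase

/-- The statement of S26 (verbatim), as a hypothesis. -/
def S26Stmt : Prop :=
  ∀ (K : Type u) [Field K] [IsAlgClosed K] {A : Scheme.{u}} (f : A ⟶ Spec (CommRingCat.of K))
    (L : RelativeGroupLaw K f) (_ : L.IsCommutative) (_ : AbelianSchemePropertyBundle K f)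
    (g : ℕ) [SmoothOfRelativeDimension g f] (n : ℕ) (_ : (n : K) ≠ 0),
    Nat.card {x : SchemeHomOver (𝟙 (Spec (CommRingCat.of K))) f //
        L.IsTorsionPoint (𝟙 (Spec (CommRingCat.of K))) n x} = n ^ (2 * g)

/-! ## Tensor products of gluing data -/

section Tensor

variable {A R₀ R₁ R₀₁ : Type u} [CommRing A] [CommRing R₀] [CommRing R₁]
    [CommRing R₀₁] [Algebra A R₀] [Algebra A R₁] [Algebra A R₀₁] [Algebra R₀ R₀₁]
    [Algebra R₁ R₀₁] [IsScalarTower A R₀ R₀₁] [IsScalarTower A R₁ R₀₁]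

/-- Bilinear maps exhibiting `G''` as the tensor product of the gluing data `G` and `G'`. -/
structure TensorMaps (G G' G'' : GlueDatum A R₀ R₁ R₀₁) where
  β₀ : G.N₀ →ₗ[R₀] G'.N₀ →ₗ[R₀] G''.N₀
  β₁ : G.N₁ →ₗ[R₁] G'.N₁ →ₗ[R₁] G''.N₁
  β₀₁ : G.N₀₁ →ₗ[R₀₁] G'.N₀₁ →ₗ[R₀₁] G''.N₀₁
  comm₀ : ∀ s s', β₀₁ (G.r₀ s) (G'.r₀ s') = G''.r₀ (β₀ s s')
  comm₁ : ∀ s s', β₀₁ (G.r₁ s) (G'.r₁ s') = G''.r₁ (β₁ s s')
  bijective₀ : Function.Bijective (TensorProduct.lift β₀)
  bijective₁ : Function.Bijective (TensorProduct.lift β₁)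
  bijective₀₁ : Function.Bijective (TensorProduct.lift β₀₁)

/-- `G''` is a tensor product of `G` and `G'`. -/
def IsTensor (G G' G'' : GlueDatum A R₀ R₁ R₀₁) : Prop := Nonempty (TensorMaps G G' G'')

end Tensor

/-! ## The curve model of a function field -/

section Model

variable (K F : Type u) [Field K] [Field F] [Algebra K F]

/-- `j : B → F` exhibits `F` as the field of fractions of `B`. -/
def IsFracMap {B : Type u} [CommRing B] [Algebra K B] (j : B →ₐ[K] F) : Prop :=
  Function.Injective j ∧ ∀ f : F, ∃ a b : B, j b ≠ 0 ∧ f * j b = j a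

/-- A curve chart (in the sense of row S25) with field of fractions `F`. -/
structure FFChart where
  B₀ : Type u
  B₁ : Type u
  B₀₁ : Type u
  [commRing₀ : CommRing B₀]
  [commRing₁ : CommRing B₁]
  [commRing₀₁ : CommRing B₀₁]
  [algebra₀ : Algebra K B₀]
  [algebra₁ : Algebra K B₁]
  [algebra₀₁ : Algebra K B₀₁]
  [algebraL : Algebra B₀ B₀₁]
  [algebraR : Algebra B₁ B₀₁]
  [towerL : IsScalarTower K B₀ B₀₁]
  [towerR : IsScalarTower K B₁ B₀₁]
  x : B₀
  y : B₁
  e : B₁ →ₐ[K] K
  isCurveChart : IsCurveChart K B₀ B₁ B₀₁ x y e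
  j₀ : B₀ →ₐ[K] F
  j₁ : B₁ →ₐ[K] F
  j₀₁ : B₀₁ →ₐ[K] F
  j₀₁_algebraMap₀ : ∀ b : B₀, j₀₁ (algebraMap B₀ B₀₁ b) = j₀ b
  j₀₁_algebraMap₁ : ∀ b : B₁, j₀₁ (algebraMap B₁ B₀₁ b) = j₁ b
  isFracMap : IsFracMap K F j₀₁

attribute [instance] FFChart.commRing₀ FFChart.commRing₁ FFChart.commRing₀₁ FFChart.algebra₀
  FFChart.algebra₁ FFChart.algebra₀₁ FFChart.algebraL FFChart.algebraR FFChart.towerL
  FFChart.towerR

/-- A smooth proper integral pointed curve over `K`, with a two-chart presentation whose rings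
have field of fractions `F`. -/
structure CurveModel where
  C : Scheme.{u}
  c : C ⟶ Spec (CommRingCat.of K)
  isProper : IsProper c
  smooth : SmoothOfRelativeDimension 1 c
  isIntegral : IsIntegral C
  ε : SchemeHomOver (𝟙 (Spec (CommRingCat.of K))) c
  Ch : ChartOf c ε
  j₀ : Ch.B₀ →ₐ[K] F
  j₁ : Ch.B₁ →ₐ[K] F
  j₀₁ : Ch.B₀₁ →ₐ[K] F
  j₀₁_algebraMap₀ : ∀ b : Ch.B₀, j₀₁ (algebraMap Ch.B₀ Ch.B₀₁ b) = j₀ b
  j₀₁_algebraMap₁ : ∀ b : Ch.B₁, j₀₁ (algebraMap Ch.B₁ Ch.B₀₁ b) = j₁ b
  isFracMap : IsFracMap K F j₀₁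

attribute [instance] CurveModel.isProper CurveModel.smooth CurveModel.isIntegral

variable {K F}

/-- Gluing data over `K` on the curve model. -/
abbrev CurveModel.GD (M : CurveModel K F) : Type (u + 1) :=
  CurveGD K M.Ch.B₀ M.Ch.B₁ M.Ch.B₀₁ K

/-- The genus of the chart: `dim_K Ȟ¹(O)`. -/
def chartGenus {c₀ : Scheme.{u}} {c : c₀ ⟶ Spec (CommRingCat.of K)}
    {ε : SchemeHomOver (𝟙 (Spec (CommRingCat.of K))) c} (Ch : ChartOf c ε) : ℕ :=
  Module.finrank K
    (GlueDatum.unit K (K ⊗[K] Ch.B₀) (K ⊗[K] Ch.B₁) (K ⊗[K] Ch.B₀₁)).H1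

end Model

/-! ## The Jacobian package -/

/-- Everything S26 needs about the Jacobian of `F`, together with the identification of its
group of `K`-points with `Pic⁰(F)`. -/
structure JacPackage (K F : Type u) [Field K] [Field F] [Algebra K F] where
  J : Scheme.{u}
  f : J ⟶ Spec (CommRingCat.of K)
  law : RelativeGroupLaw K f
  comm : law.IsCommutative
  bundle : AbelianSchemePropertyBundle K f
  smoothDim : SmoothOfRelativeDimension (genusFF K F) f
  pts : Pic0 K F ≃ SchemeHomOver (𝟙 (Spec (CommRingCat.of K))) f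
  pts_add : ∀ x y : Pic0 K F,
    pts (x + y) = law.mul (𝟙 (Spec (CommRingCat.of K))) (pts x) (pts y)

/-- A point over `𝟙` as a point over `specStr K K`. -/
def toSpecStrPoint {K : Type u} [Field K] {J : Scheme.{u}} {f : J ⟶ Spec (CommRingCat.of K)}
    (g : SchemeHomOver (𝟙 (Spec (CommRingCat.of K))) f) : SchemeHomOver (specStr K K) f :=
  ⟨g.1, g.2.trans (by
    rw [specStr, Algebra.algebraMap_self]
    exact (Spec.map_id _).symm)⟩

namespace Stmt

/-! ## The blocks -/

section Blocks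

variable (K F : Type u) [Field K] [Field F] [Algebra K F]

/-- **S27 in one universe.** -/
def Uniform : Prop :=
  ∀ [IsAlgClosed K] [CharZero K] [IsCurveOver K F] [Algebra.EssFiniteType K F]
    (ℓ : ℕ) [Fact ℓ.Prime] (k : ℕ),
    Nat.card (Pic0.torsion K F (ℓ ^ k)) = ℓ ^ (2 * genusFF K F * k)

/-- **JAC**: the Jacobian package exists. -/
def Jac : Prop :=
  ∀ [IsAlgClosed K] [CharZero K] [IsCurveOver K F] [Algebra.EssFiniteType K F],
    Nonempty (JacPackage K F)

/-- **FF-ALG** (pure algebra): a function field of a curve has a curve chart. -/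
def FFAlg : Prop :=
  ∀ [IsAlgClosed K] [CharZero K] [IsCurveOver K F] [Algebra.EssFiniteType K F],
    Nonempty (FFChart K F)

/-- **MODEL**: a function field of a curve is the function field of a smooth proper pointed
curve with a two-chart presentation. -/
def Model : Prop :=
  ∀ [IsAlgClosed K] [CharZero K] [IsCurveOver K F] [Algebra.EssFiniteType K F],
    Nonempty (CurveModel K F)

/-- **GENUS**: the genus of `F` (Weil repartitions) is `dim Ȟ¹(O)` of the chart. -/
def Genus : Prop :=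
  ∀ [IsAlgClosed K] [IsCurveOver K F] (M : CurveModel K F), genusFF K F = chartGenus M.Ch

/-- **PIC-CL**: the divisor class of a gluing datum of degree zero over `K`. -/
def PicCl : Prop :=
  ∀ [IsAlgClosed K] [IsCurveOver K F] (M : CurveModel K F),
    ∃ cl : {G : M.GD // G.degree = 0} → Pic0 K F,
      Function.Surjective cl ∧ (∀ G G', cl G = cl G' ↔ G.1.IsIso G'.1) ∧
        ∀ (G G' : {G : M.GD // G.degree = 0}) (G'' : M.GD), IsTensor G.1 G'.1 G'' →
          ∃ h : G''.degree = 0, cl ⟨G'', h⟩ = cl G + cl G'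

end Blocks

/-- **TENSOR-EXISTS** (pure algebra): tensor products of gluing data exist. -/
def TensorExists : Prop :=
  ∀ (A R₀ R₁ R₀₁ : Type u) [CommRing A] [CommRing R₀] [CommRing R₁]
    [CommRing R₀₁] [Algebra A R₀] [Algebra A R₁] [Algebra A R₀₁] [Algebra R₀ R₀₁]
    [Algebra R₁ R₀₁] [IsScalarTower A R₀ R₀₁] [IsScalarTower A R₁ R₀₁]
    (G G' : GlueDatum A R₀ R₁ R₀₁), ∃ G'' : GlueDatum A R₀ R₁ R₀₁, IsTensor G G' G''

section Geometric

variable (k : Type u) [Field k]

/-- **CURVE-SCHEME**: a curve chart is the two-chart presentation of a smooth proper integral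
pointed curve. -/
def CurveScheme : Prop :=
  ∀ [IsAlgClosed k] (B₀ B₁ B₀₁ : Type u) [CommRing B₀] [CommRing B₁] [CommRing B₀₁]
    [Algebra k B₀] [Algebra k B₁] [Algebra k B₀₁] [Algebra B₀ B₀₁] [Algebra B₁ B₀₁]
    [IsScalarTower k B₀ B₀₁] [IsScalarTower k B₁ B₀₁] (x : B₀) (y : B₁) (e : B₁ →ₐ[k] k),
    IsCurveChart k B₀ B₁ B₀₁ x y e →
    ∃ (C : Scheme.{u}) (c : C ⟶ Spec (CommRingCat.of k)) (_ : IsProper c)
      (_ : SmoothOfRelativeDimension 1 c) (_ : IsIntegral C)
      (ε : SchemeHomOver (𝟙 (Spec (CommRingCat.of k))) c) (Ch : ChartOf c ε)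
      (φ₀ : Ch.B₀ ≃ₐ[k] B₀) (φ₁ : Ch.B₁ ≃ₐ[k] B₁) (φ₀₁ : Ch.B₀₁ ≃ₐ[k] B₀₁),
      (∀ b, φ₀₁ (algebraMap Ch.B₀ Ch.B₀₁ b) = algebraMap B₀ B₀₁ (φ₀ b)) ∧
        ∀ b, φ₀₁ (algebraMap Ch.B₁ Ch.B₀₁ b) = algebraMap B₁ B₀₁ (φ₁ b)

/-- **CONN**: the Jacobian has connected fibres over `Spec k`. -/
def Conn : Prop :=
  ∀ [IsAlgClosed k] {J : Scheme.{u}} (f : J ⟶ Spec (CommRingCat.of k)) [IsProper f]
    [GeometricallyConnected f] (_ : SchemeHomOver (𝟙 (Spec (CommRingCat.of k))) f),
    ∀ s : Spec (CommRingCat.of k), _root_.IsConnected (f.base ⁻¹' {s})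

/-- **GRP**: the Jacobian of a curve carries a commutative group law, which on affine test
schemes is the tensor product of gluing data. -/
def Grp : Prop :=
  ∀ [IsAlgClosed k] {C : Scheme.{u}} (c : C ⟶ Spec (CommRingCat.of k))
    [IsProper c] [SmoothOfRelativeDimension 1 c] [IsIntegral C]
    (ε : SchemeHomOver (𝟙 (Spec (CommRingCat.of k))) c) (Ch : ChartOf c ε)
    (D : RelativePic0Designation k c)
    (hrep : RepresentsRelSubPic c ε (algEquivZeroCut c ε) D),
    ∃ L : RelativeGroupLaw k D.toBase, L.IsCommutative ∧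
      ∀ (A : Type u) [CommRing A] [Algebra k A] (g g' : SchemeHomOver (specStr k A) D.toBase)
        (G G' G'' : CurveGD k Ch.B₀ Ch.B₁ Ch.B₀₁ A),
        Corr Ch A (hrep.poincare.pullbackAlong g).L G →
        Corr Ch A (hrep.poincare.pullbackAlong g').L G' → IsTensor G G' G'' →
        Corr Ch A (hrep.poincare.pullbackAlong (L.mul (specStr k A) g g')).L G''

/-- **DIM**: the Jacobian of a curve is smooth of relative dimension `dim Ȟ¹(O)`. -/
def Dim : Prop :=
  ∀ [IsAlgClosed k] {C : Scheme.{u}} (c : C ⟶ Spec (CommRingCat.of k))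
    [IsProper c] [SmoothOfRelativeDimension 1 c] [IsIntegral C]
    (ε : SchemeHomOver (𝟙 (Spec (CommRingCat.of k))) c) (Ch : ChartOf c ε)
    (D : RelativePic0Designation k c)
    (_ : RepresentsRelSubPic c ε (algEquivZeroCut c ε) D),
    Smooth D.toBase → IsProper D.toBase → GeometricallyConnected D.toBase →
      SmoothOfRelativeDimension (chartGenus Ch) D.toBase

/-- **PTS-DICT**: over the base field, the points of the Jacobian are the gluing data of
degree zero up to isomorphism. -/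
def PtsDict : Prop :=
  ∀ [IsAlgClosed k] {C : Scheme.{u}} (c : C ⟶ Spec (CommRingCat.of k))
    [IsProper c] [SmoothOfRelativeDimension 1 c] [IsIntegral C]
    (ε : SchemeHomOver (𝟙 (Spec (CommRingCat.of k))) c) (Ch : ChartOf c ε)
    (D : RelativePic0Designation k c)
    (hrep : RepresentsRelSubPic c ε (algEquivZeroCut c ε) D),
    (∀ g : SchemeHomOver (specStr k k) D.toBase, ∃ G : CurveGD k Ch.B₀ Ch.B₁ Ch.B₀₁ k,
      G.degree = 0 ∧ Corr Ch k (hrep.poincare.pullbackAlong g).L G) ∧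
    (∀ G : CurveGD k Ch.B₀ Ch.B₁ Ch.B₀₁ k, G.degree = 0 →
      ∃ g : SchemeHomOver (specStr k k) D.toBase,
        Corr Ch k (hrep.poincare.pullbackAlong g).L G) ∧
    ∀ (g g' : SchemeHomOver (specStr k k) D.toBase) (G G' : CurveGD k Ch.B₀ Ch.B₁ Ch.B₀₁ k),
      Corr Ch k (hrep.poincare.pullbackAlong g).L G →
      Corr Ch k (hrep.poincare.pullbackAlong g').L G' → (g = g' ↔ G.IsIso G')

end Geometric

end Stmt

end

end Fermat.Agent.S27

namespace Fermat.Agent.S27.Stmt

open AlgebraicCurve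

universe u₁ u₂ v

/-- **TRANSPORT** (formal): everything in S27 is invariant under isomorphisms of the pair
`(K, F)`; used to move `K` and `F` into one universe. -/
def Transport : Prop :=
  ∀ (K : Type u₁) (F : Type u₂) [Field K] [Field F] [Algebra K F]
    (K' : Type v) (F' : Type v) [Field K'] [Field F'] [Algebra K' F']
    (σ : K ≃+* K') (τ : F ≃+* F'),
    (∀ a : K, τ (algebraMap K F a) = algebraMap K' F' (σ a)) →
    (IsCurveOver K F → IsCurveOver K' F') ∧
      (Algebra.EssFiniteType K F → Algebra.EssFiniteType K' F') ∧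
      genusFF K F = genusFF K' F' ∧
      ∀ n : ℕ, Nat.card (Pic0.torsion K F n) = Nat.card (Pic0.torsion K' F' n)

end Fermat.Agent.S27.Stmt
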