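import Fermat.Agent.S27.TopJac
import Fermat.Agent.S27.H190.ULiftGenus

/-!
# Row S27: the top glue, universe step by helper190 (architect helper87)

`H190.s27_of_small` (on main) reduces S27 for `K : Type u`, `F : Type v` to the case `F : Type u`
(an essentially finite type extension is `u`-small).  So the leaf `Stmt.Transport` is NOT needed,
and S25, S26 and all leaves are used in the universe of `K` only.

* `result_of_leaves` : S25Stmt, S26Stmt, TensorExists, FFAlg, CurveScheme, Grp, Dim, Conn, PtsDict,
  Genus, PicCl  ⇒  the frozen statement S27.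
-/

set_option autoImplicit false
universe u v
open CategoryTheory CategoryTheory.Limits AlgebraicGeometry AlgebraicGeometry.RelPicard
  NeronModelInfra GoodReductionJacobian AlgebraicCurve

namespace Fermat.Agent.S27

/-- S27 in one universe, in the shape of `H190.S27Small`. -/
theorem small_of_uniform
    (hU : ∀ (K F : Type u) [Field K] [Field F] [Algebra K F], Stmt.Uniform K F) :
    H190.S27Small.{u} :=
  fun K F _ _ _ _ _ _ _ ℓ _ k => hU K F ℓ k

/-- **S27 from the leaves** (final form of the top glue). -/
theorem result_of_leaves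
    (hS25 : S25Stmt.{u}) (hS26 : S26Stmt.{u})
    (hT : Stmt.TensorExists.{u})
    (hA : ∀ (K F : Type u) [Field K] [Field F] [Algebra K F], Stmt.FFAlg K F)
    (hCS : ∀ (K : Type u) [Field K], Stmt.CurveScheme K)
    (hG : ∀ (K : Type u) [Field K], Stmt.Grp K)
    (hD : ∀ (K : Type u) [Field K], Stmt.Dim K)
    (hC : ∀ (K : Type u) [Field K], Stmt.Conn K)
    (hP : ∀ (K : Type u) [Field K], Stmt.PtsDict K)
    (hGen : ∀ (K F : Type u) [Field K] [Field F] [Algebra K F], Stmt.Genus K F)
    (hCl : ∀ (K F : Type u) [Field K] [Field F] [Algebra K F], Stmt.PicCl K F)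
    (K : Type u) (F : Type v) [Field K] [Field F] [Algebra K F] [IsAlgClosed K] [CharZero K]
    [IsCurveOver K F] [Algebra.EssFiniteType K F] (ℓ : ℕ) [Fact ℓ.Prime] (k : ℕ) :
    Nat.card (Pic0.torsion K F (ℓ ^ k)) = ℓ ^ (2 * genusFF K F * k) :=
  H190.s27_of_small
    (small_of_uniform fun K F _ _ _ => uniform_of_jac hS26
      (jac_of_blocks hS25 (model_of_blocks (hA K F) (hCS K)) (hG K) (hD K) (hC K)
        (hGen K F) (hCl K F) (hP K) hT))
    K F ℓ k

end Fermat.Agent.S27
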