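import Fermat.Agent.S27.Top

/-!
# Row S27: second level glue (architect helper87)

* `model_of_blocks` : `FFAlg` + `CurveScheme` ⇒ `Model`.
* `jac_of_blocks`   : S25 (hypothesis) + `Model` + `Grp` + `Dim` + `Conn` + `Genus` + `PicCl` +
  `PtsDict` + `TensorExists` ⇒ `Jac`.
* `result_of_blocks` : S27 from S25, S26 and the leaves.
-/

set_option autoImplicit false
set_option linter.style.haveILetI false
universe u
open CategoryTheory CategoryTheory.Limits AlgebraicGeometry AlgebraicGeometry.RelPicard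
  NeronModelInfra GoodReductionJacobian AlgebraicCurve
open scoped TensorProduct

namespace Fermat.Agent.S27

open Fermat.Agent.S25

noncomputable section

section Model

variable {K F : Type u} [Field K] [Field F] [Algebra K F]

/-- **MODEL** from the chart of `F` and the scheme of a chart. -/
theorem model_of_blocks (hA : Stmt.FFAlg K F) (hC : Stmt.CurveScheme K) : Stmt.Model K F := by
  intro _ _ _ _
  obtain ⟨X⟩ := hA
  obtain ⟨C, c, hp, hs, hi, ε, Ch, φ₀, φ₁, φ₀₁, h₀, h₁⟩ :=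
    hC X.B₀ X.B₁ X.B₀₁ X.x X.y X.e X.isCurveChart
  refine ⟨{ C := C, c := c, isProper := hp, smooth := hs, isIntegral := hi, ε := ε, Ch := Ch
            j₀ := X.j₀.comp φ₀.toAlgHom
            j₁ := X.j₁.comp φ₁.toAlgHom
            j₀₁ := X.j₀₁.comp φ₀₁.toAlgHom
            j₀₁_algebraMap₀ := fun b => ?_
            j₀₁_algebraMap₁ := fun b => ?_
            isFracMap := ⟨?_, fun f => ?_⟩ }⟩
  · show X.j₀₁ (φ₀₁ (algebraMap Ch.B₀ Ch.B₀₁ b)) = X.j₀ (φ₀ b)
    rw [h₀, X.j₀₁_algebraMap₀]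
  · show X.j₀₁ (φ₀₁ (algebraMap Ch.B₁ Ch.B₀₁ b)) = X.j₁ (φ₁ b)
    rw [h₁, X.j₀₁_algebraMap₁]
  · exact X.isFracMap.1.comp φ₀₁.injective
  · obtain ⟨a, b, hb, hab⟩ := X.isFracMap.2 f
    refine ⟨φ₀₁.symm a, φ₀₁.symm b, ?_, ?_⟩
    · show X.j₀₁ (φ₀₁ (φ₀₁.symm b)) ≠ 0
      rwa [AlgEquiv.apply_symm_apply]
    · show f * X.j₀₁ (φ₀₁ (φ₀₁.symm b)) = X.j₀₁ (φ₀₁ (φ₀₁.symm a))
      rwa [AlgEquiv.apply_symm_apply, AlgEquiv.apply_symm_apply]

end Model

section Bridge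

variable {K : Type u} [Field K] {J : Scheme.{u}} {f : J ⟶ Spec (CommRingCat.of K)}

theorem specStr_self : specStr K K = 𝟙 (Spec (CommRingCat.of K)) := by
  rw [specStr, Algebra.algebraMap_self]
  exact Spec.map_id _

/-- Points over `𝟙` and over `specStr K K` are the same thing. -/
def specStrPointEquiv :
    SchemeHomOver (𝟙 (Spec (CommRingCat.of K))) f ≃ SchemeHomOver (specStr K K) f where
  toFun g := ⟨g.1, g.2.trans specStr_self.symm⟩
  invFun g := ⟨g.1, g.2.trans specStr_self⟩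
  left_inv _ := rfl
  right_inv _ := rfl

/-- The group law does not see the difference. -/
theorem specStrPointEquiv_symm_mul (L : RelativeGroupLaw K f)
    (a b : SchemeHomOver (specStr K K) f) :
    specStrPointEquiv.symm (L.mul (specStr K K) a b) =
      L.mul (𝟙 _) (specStrPointEquiv.symm a) (specStrPointEquiv.symm b) := by
  have hψ : 𝟙 (Spec (CommRingCat.of K)) ≫ specStr K K = 𝟙 (Spec (CommRingCat.of K)) := by
    rw [Category.id_comp, specStr_self]
  have h := L.mul_natural (specStr K K) (𝟙 _) (𝟙 _) hψ a b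
  have hc : ∀ x : SchemeHomOver (specStr K K) f,
      schemeHomOverComp (𝟙 _) hψ x = specStrPointEquiv.symm x := fun x =>
    Subtype.ext (Category.id_comp _)
  rw [hc, hc, hc] at h
  exact h

end Bridge

section Jac

variable {K F : Type u} [Field K] [Field F] [Algebra K F]

/-- **JAC** from the blocks. -/
theorem jac_of_blocks (hS25 : S25Stmt.{u}) (hM : Stmt.Model K F) (hG : Stmt.Grp K)
    (hD : Stmt.Dim K) (hC : Stmt.Conn K) (hGen : Stmt.Genus K F) (hCl : Stmt.PicCl K F)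
    (hP : Stmt.PtsDict K) (hT : Stmt.TensorExists.{u}) : Stmt.Jac K F := by
  intro _ _ _ _
  obtain ⟨M⟩ := hM
  obtain ⟨D, ⟨hrep⟩, hsm, hpr, hgc⟩ := hS25 K M.c M.ε
  obtain ⟨L, hcomm, htens⟩ := hG M.c M.ε M.Ch D hrep
  have hdim := hD M.c M.ε M.Ch D hrep hsm hpr hgc
  obtain ⟨cl, hsurj, hiso, hadd⟩ := hCl M
  obtain ⟨ha, hb, hc⟩ := hP M.c M.ε M.Ch D hrep
  -- the graph of the bijection
  let R : Pic0 K F → SchemeHomOver (specStr K K) D.toBase → Prop := fun x g =>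
    ∃ (G : M.GD) (hG0 : G.degree = 0), cl ⟨G, hG0⟩ = x ∧
      Corr M.Ch K (hrep.poincare.pullbackAlong g).L G
  have hR1 : ∀ x, ∃ g, R x g := fun x => by
    obtain ⟨⟨G, hG0⟩, rfl⟩ := hsurj x
    obtain ⟨g, hg⟩ := hb G hG0
    exact ⟨g, G, hG0, rfl, hg⟩
  have hR2 : ∀ x g g', R x g → R x g' → g = g' := by
    rintro x g g' ⟨G, hG0, hx, hg⟩ ⟨G', hG0', hx', hg'⟩
    exact (hc g g' G G' hg hg').mpr ((hiso ⟨G, hG0⟩ ⟨G', hG0'⟩).mp (hx.trans hx'.symm))
  have hR3 : ∀ g, ∃ x, R x g := fun g => by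
    obtain ⟨G, hG0, hg⟩ := ha g
    exact ⟨cl ⟨G, hG0⟩, G, hG0, rfl, hg⟩
  have hR4 : ∀ x x' g, R x g → R x' g → x = x' := by
    rintro x x' g ⟨G, hG0, rfl, hg⟩ ⟨G', hG0', rfl, hg'⟩
    exact (hiso ⟨G, hG0⟩ ⟨G', hG0'⟩).mpr ((hc g g G G' hg hg').mp rfl)
  choose φ hφ using hR1
  have hφbij : Function.Bijective φ := by
    constructor
    · intro x x' h
      exact hR4 x x' (φ x) (hφ x) (h ▸ hφ x')
    · intro g
      obtain ⟨x, hx⟩ := hR3 g
      exact ⟨x, hR2 x _ _ (hφ x) hx⟩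
  have hφadd : ∀ x y, φ (x + y) = L.mul (specStr K K) (φ x) (φ y) := by
    intro x y
    obtain ⟨G, hG0, hx, hg⟩ := hφ x
    obtain ⟨G', hG0', hy, hg'⟩ := hφ y
    obtain ⟨G'', hG''⟩ := hT K (K ⊗[K] M.Ch.B₀) (K ⊗[K] M.Ch.B₁) (K ⊗[K] M.Ch.B₀₁) G G'
    obtain ⟨hG0'', hcl⟩ := hadd ⟨G, hG0⟩ ⟨G', hG0'⟩ G'' hG''
    have hcorr := htens K (φ x) (φ y) G G' G'' hg hg' hG''
    refine hR2 (x + y) _ _ (hφ (x + y)) ⟨G'', hG0'', ?_, hcorr⟩
    rw [hcl, hx, hy]
  haveI : IsProper D.toBase := hpr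
  haveI : GeometricallyConnected D.toBase := hgc
  refine ⟨{ J := D.P, f := D.toBase, law := L, comm := hcomm
            bundle := ⟨hsm, hpr,
              hC D.toBase ⟨D.zeroSection, D.zeroSection_toBase⟩, ⟨L⟩⟩
            smoothDim := by rw [hGen M]; exact hdim
            pts := (Equiv.ofBijective φ hφbij).trans specStrPointEquiv.symm
            pts_add := fun x y => ?_ }⟩
  show specStrPointEquiv.symm (φ (x + y)) =
    L.mul (𝟙 _) (specStrPointEquiv.symm (φ x)) (specStrPointEquiv.symm (φ y))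
  rw [hφadd, specStrPointEquiv_symm_mul]

end Jac

section Result

universe u₁ u₂

/-- **S27 from the blocks**: the frozen statement S27 follows from S25, S26 (as hypotheses, in
the universe `max u₁ u₂`) and the leaves of row S27. -/
theorem result_of_blocks
    (hS25 : S25Stmt.{max u₁ u₂}) (hS26 : S26Stmt.{max u₁ u₂})
    (hTr : Stmt.Transport.{u₁, u₂, max u₁ u₂})
    (hT : Stmt.TensorExists.{max u₁ u₂})
    (hA : ∀ (K F : Type (max u₁ u₂)) [Field K] [Field F] [Algebra K F], Stmt.FFAlg K F)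
    (hCS : ∀ (K : Type (max u₁ u₂)) [Field K], Stmt.CurveScheme K)
    (hG : ∀ (K : Type (max u₁ u₂)) [Field K], Stmt.Grp K)
    (hD : ∀ (K : Type (max u₁ u₂)) [Field K], Stmt.Dim K)
    (hC : ∀ (K : Type (max u₁ u₂)) [Field K], Stmt.Conn K)
    (hP : ∀ (K : Type (max u₁ u₂)) [Field K], Stmt.PtsDict K)
    (hGen : ∀ (K F : Type (max u₁ u₂)) [Field K] [Field F] [Algebra K F], Stmt.Genus K F)
    (hCl : ∀ (K F : Type (max u₁ u₂)) [Field K] [Field F] [Algebra K F], Stmt.PicCl K F)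
    (K : Type u₁) (F : Type u₂) [Field K] [Field F] [Algebra K F] [IsAlgClosed K] [CharZero K]
    [IsCurveOver K F] [Algebra.EssFiniteType K F] (ℓ : ℕ) [Fact ℓ.Prime] (k : ℕ) :
    Nat.card (Pic0.torsion K F (ℓ ^ k)) = ℓ ^ (2 * genusFF K F * k) :=
  result_of_uniform hTr
    (fun K F _ _ _ => uniform_of_jac hS26
      (jac_of_blocks hS25 (model_of_blocks (hA K F) (hCS K)) (hG K) (hD K) (hC K)
        (hGen K F) (hCl K F) (hP K) hT))
    K F ℓ k

end Result

end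

end Fermat.Agent.S27
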