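import Fermat.Agent.S27.Spec

/-!
# Row S27: the top glue (architect helper87)

* `uniform_of_jac`   : S26 (hypothesis) + `Stmt.Jac` ⇒ S27 for `K`, `F` in one universe.
* `result_of_uniform` : `Stmt.Transport` + S27 in one universe ⇒ S27 (any universes).
-/

set_option autoImplicit false
set_option linter.style.haveILetI false
universe u
open CategoryTheory CategoryTheory.Limits AlgebraicGeometry AlgebraicGeometry.RelPicard
  NeronModelInfra GoodReductionJacobian AlgebraicCurve
open scoped TensorProduct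

namespace Fermat.Agent.S27

open Fermat.Agent.S25

noncomputable section

section Count

variable {K F : Type u} [Field K] [Field F] [Algebra K F]

/-- The identity of the group law is the image of `0`. -/
theorem JacPackage.pts_zero (P : JacPackage K F) :
    P.pts 0 = P.law.one (𝟙 (Spec (CommRingCat.of K))) := by
  set t := 𝟙 (Spec (CommRingCat.of K))
  have hidem : P.law.mul t (P.pts 0) (P.pts 0) = P.pts 0 := by
    rw [← P.pts_add, add_zero]
  calc P.pts 0 = P.law.mul t (P.law.one t) (P.pts 0) := (P.law.one_mul t _).symm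
    _ = P.law.mul t (P.law.mul t (P.law.inv t (P.pts 0)) (P.pts 0)) (P.pts 0) := by
        rw [P.law.inv_mul_cancel]
    _ = P.law.mul t (P.law.inv t (P.pts 0)) (P.law.mul t (P.pts 0) (P.pts 0)) :=
        P.law.mul_assoc t _ _ _
    _ = P.law.mul t (P.law.inv t (P.pts 0)) (P.pts 0) := by rw [hidem]
    _ = P.law.one t := P.law.inv_mul_cancel t _

/-- `pts` turns multiples into multiples. -/
theorem JacPackage.pts_nsmul (P : JacPackage K F) (n : ℕ) (x : Pic0 K F) :
    P.pts (n • x) = P.law.nsmul (𝟙 (Spec (CommRingCat.of K))) n (P.pts x) := by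
  induction n with
  | zero => rw [zero_nsmul, P.pts_zero]; rfl
  | succ n ih => rw [succ_nsmul, P.pts_add, ih]; rfl

/-- The torsion of `Pic⁰` is the torsion of the Jacobian. -/
def JacPackage.torsionEquiv (P : JacPackage K F) (n : ℕ) :
    Pic0.torsion K F n ≃
      {x : SchemeHomOver (𝟙 (Spec (CommRingCat.of K))) P.f //
        P.law.IsTorsionPoint (𝟙 (Spec (CommRingCat.of K))) n x} :=
  P.pts.subtypeEquiv fun x => by
    show x ∈ Pic0.torsion K F n ↔ P.law.nsmul _ n (P.pts x) = P.law.one _
    rw [Pic0.mem_torsion, natCast_zsmul, ← P.pts_nsmul, ← P.pts_zero]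
    exact P.pts.injective.eq_iff.symm

/-- **S27 in one universe**, from S26 and the Jacobian package. -/
theorem uniform_of_jac (hS26 : S26Stmt.{u}) (hJ : Stmt.Jac K F) : Stmt.Uniform K F := by
  intro _ _ _ _ ℓ hℓ k
  obtain ⟨P⟩ := hJ
  have hn : ((ℓ ^ k : ℕ) : K) ≠ 0 := by
    rw [Nat.cast_ne_zero]
    exact pow_ne_zero _ hℓ.out.ne_zero
  haveI := P.smoothDim
  have h := hS26 K P.f P.law P.comm P.bundle (genusFF K F) (ℓ ^ k) hn
  rw [Nat.card_congr (P.torsionEquiv (ℓ ^ k)), h, ← pow_mul]
  congr 1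
  ring

end Count

section Universe

universe u₁ u₂

/-- Algebraic closedness is invariant under ring isomorphisms (across universes). -/
theorem isAlgClosed_of_ringEquiv {K : Type u₁} {L : Type u₂} [Field K] [Field L]
    [IsAlgClosed K] (σ : K ≃+* L) : IsAlgClosed L := by
  apply IsAlgClosed.of_exists_root
  intro p _ hirr
  have hdeg : (p.map (σ.symm : L →+* K)).degree ≠ 0 := by
    rw [Polynomial.degree_map]
    exact (Polynomial.degree_pos_of_irreducible hirr).ne'
  obtain ⟨x, hx⟩ := IsAlgClosed.exists_root (p.map (σ.symm : L →+* K)) hdeg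
  refine ⟨σ x, ?_⟩
  rw [Polynomial.IsRoot, Polynomial.eval_map] at hx
  have h := congrArg (σ : K →+* L) hx
  rw [Polynomial.hom_eval₂, map_zero] at h
  have hid : (σ : K →+* L).comp (σ.symm : L →+* K) = RingHom.id L := by
    ext a
    simp
  rw [hid, Polynomial.eval₂_id] at h
  exact h

/-- **S27**, from the transport statement and S27 in one universe. -/
theorem result_of_uniform (hT : Stmt.Transport.{u₁, u₂, max u₁ u₂})
    (hU : ∀ (K F : Type (max u₁ u₂)) [Field K] [Field F] [Algebra K F], Stmt.Uniform K F)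
    (K : Type u₁) (F : Type u₂) [Field K] [Field F] [Algebra K F] [IsAlgClosed K] [CharZero K]
    [IsCurveOver K F] [Algebra.EssFiniteType K F] (ℓ : ℕ) [Fact ℓ.Prime] (k : ℕ) :
    Nat.card (Pic0.torsion K F (ℓ ^ k)) = ℓ ^ (2 * genusFF K F * k) := by
  let σ : K ≃+* ULift.{u₂} K := ULift.ringEquiv.symm
  let τ : F ≃+* ULift.{u₁} F := ULift.ringEquiv.symm
  letI : Algebra (ULift.{u₂} K) (ULift.{u₁} F) :=
    ((τ.toRingHom.comp (algebraMap K F)).comp σ.symm.toRingHom).toAlgebra
  have hcompat : ∀ a : K, τ (algebraMap K F a) =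
      algebraMap (ULift.{u₂} K) (ULift.{u₁} F) (σ a) := fun a => rfl
  obtain ⟨h1, h2, h3, h4⟩ := hT K F (ULift.{u₂} K) (ULift.{u₁} F) σ τ hcompat
  haveI : IsAlgClosed (ULift.{u₂} K) := isAlgClosed_of_ringEquiv σ
  haveI : CharZero (ULift.{u₂} K) := charZero_of_injective_ringHom σ.toRingHom.injective
  haveI : IsCurveOver (ULift.{u₂} K) (ULift.{u₁} F) := h1 inferInstance
  haveI : Algebra.EssFiniteType (ULift.{u₂} K) (ULift.{u₁} F) := h2 inferInstance
  rw [h3, h4]
  exact hU (ULift.{u₂} K) (ULift.{u₁} F) ℓ k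

end Universe

end

end Fermat.Agent.S27
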