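import Fermat.Agent.S27.TopSmall

/-!
# Row S27: alternative (weaker) leaf shapes and their adapters (architect helper87)

The frozen leaves of `Spec.lean` stay as they are.  This file offers WEAKER shapes which are
also accepted, with the proved glue; a block owner may deliver either shape.

* `Stmt.GrpK k`    : `Stmt.Grp k` with the tensor clause over the base field only
                     (`Stmt.Grp k → Stmt.GrpK k` is `grpK_of_grp`).
* `Stmt.JacPts K F`: on the Jacobian of a curve model of `F` there is a commutative group law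
                     and an additive bijection `Pic⁰(F) ≃ J(K)` (replaces GRP + TENSOR + PTS-DICT +
                     PIC-CL for whoever has another route to it).
* `Stmt.DimG K F`  : the Jacobian of a curve model of `F` has relative dimension `genusFF K F`
                     (replaces DIM + GENUS).
* `result_of_jac`     : S26 + `Stmt.Jac` ⇒ S27.
* `result_of_leavesK` : as `result_of_leaves`, with `GrpK` in place of `Grp`.
* `result_of_jacPts`  : S25 + S26 + FFAlg + CurveScheme + Conn + JacPts + DimG ⇒ S27.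
-/

set_option autoImplicit false
set_option linter.style.haveILetI false
universe u v
open CategoryTheory CategoryTheory.Limits AlgebraicGeometry AlgebraicGeometry.RelPicard
  NeronModelInfra GoodReductionJacobian AlgebraicCurve
open scoped TensorProduct

namespace Fermat.Agent.S27

open Fermat.Agent.S25

noncomputable section

namespace Stmt

/-- **GRP, weak form**: the tensor clause of `Stmt.Grp` over the base field only. -/
def GrpK (k : Type u) [Field k] : Prop :=
  ∀ [IsAlgClosed k] {C : Scheme.{u}} (c : C ⟶ Spec (CommRingCat.of k))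
    [IsProper c] [SmoothOfRelativeDimension 1 c] [IsIntegral C]
    (ε : SchemeHomOver (𝟙 (Spec (CommRingCat.of k))) c) (Ch : ChartOf c ε)
    (D : RelativePic0Designation k c)
    (hrep : RepresentsRelSubPic c ε (algEquivZeroCut c ε) D),
    ∃ L : RelativeGroupLaw k D.toBase, L.IsCommutative ∧
      ∀ (g g' : SchemeHomOver (specStr k k) D.toBase)
        (G G' G'' : CurveGD k Ch.B₀ Ch.B₁ Ch.B₀₁ k),
        Corr Ch k (hrep.poincare.pullbackAlong g).L G →
        Corr Ch k (hrep.poincare.pullbackAlong g').L G' → IsTensor G G' G'' →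
        Corr Ch k (hrep.poincare.pullbackAlong (L.mul (specStr k k) g g')).L G''

/-- **JAC-PTS**: on the Jacobian of a curve model of `F` there is a commutative group law and
an additive bijection `Pic⁰(F) ≃ J(K)`. -/
def JacPts (K F : Type u) [Field K] [Field F] [Algebra K F] : Prop :=
  ∀ [IsAlgClosed K] [IsCurveOver K F] (M : CurveModel K F)
    (D : RelativePic0Designation K M.c)
    (_ : RepresentsRelSubPic M.c M.ε (algEquivZeroCut M.c M.ε) D),
    Smooth D.toBase → IsProper D.toBase → GeometricallyConnected D.toBase →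
    ∃ L : RelativeGroupLaw K D.toBase, L.IsCommutative ∧
      ∃ pts : Pic0 K F ≃ SchemeHomOver (𝟙 (Spec (CommRingCat.of K))) D.toBase,
        ∀ x y : Pic0 K F, pts (x + y) = L.mul (𝟙 (Spec (CommRingCat.of K))) (pts x) (pts y)

/-- **DIM-G**: the Jacobian of a curve model of `F` has relative dimension `genusFF K F`. -/
def DimG (K F : Type u) [Field K] [Field F] [Algebra K F] : Prop :=
  ∀ [IsAlgClosed K] [IsCurveOver K F] (M : CurveModel K F)
    (D : RelativePic0Designation K M.c)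
    (_ : RepresentsRelSubPic M.c M.ε (algEquivZeroCut M.c M.ε) D),
    Smooth D.toBase → IsProper D.toBase → GeometricallyConnected D.toBase →
      SmoothOfRelativeDimension (genusFF K F) D.toBase

end Stmt

section Adapters

variable {K F : Type u} [Field K] [Field F] [Algebra K F]

/-- The strong form of GRP gives the weak one. -/
theorem grpK_of_grp (h : Stmt.Grp K) : Stmt.GrpK K := by
  intro _ C c _ _ _ ε Ch D hrep
  obtain ⟨L, hc, ht⟩ := h c ε Ch D hrep
  exact ⟨L, hc, fun g g' G G' G'' => ht K g g' G G' G''⟩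

/-- DIM-G from DIM and GENUS. -/
theorem dimG_of_dim (hD : Stmt.Dim K) (hGen : Stmt.Genus K F) : Stmt.DimG K F := by
  intro _ _ M D hrep hsm hpr hgc
  rw [hGen M]
  exact hD M.c M.ε M.Ch D hrep hsm hpr hgc

/-- JAC-PTS from GRP (weak form), PIC-CL, PTS-DICT and TENSOR. -/
theorem jacPts_of_blocks (hG : Stmt.GrpK K) (hCl : Stmt.PicCl K F) (hP : Stmt.PtsDict K)
    (hT : Stmt.TensorExists.{u}) : Stmt.JacPts K F := by
  intro _ _ M D hrep _ _ _
  obtain ⟨L, hcomm, htens⟩ := hG M.c M.ε M.Ch D hrep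
  obtain ⟨cl, hsurj, hiso, hadd⟩ := hCl M
  obtain ⟨ha, hb, hc⟩ := hP M.c M.ε M.Ch D hrep
  let R : Pic0 K F → SchemeHomOver (specStr K K) D.toBase → Prop := fun x g =>
    ∃ (G : M.GD) (hG0 : G.degree = 0), cl ⟨G, hG0⟩ = x ∧
      Corr M.Ch K (hrep.poincare.pullbackAlong g).L G
  have hR1 : ∀ x, ∃ g, R x g := fun x => by
    obtain ⟨⟨G, hG0⟩, rfl⟩ := hsurj x
    obtain ⟨g, hg⟩ := hb G hG0
    exact ⟨g, G, hG0, rfl, hg⟩
  have hR2 : ∀ x g g', R x g → R x g' → g = g' := by
    rintro x g g' ⟨G, hG0, hx, hg⟩ ⟨G', hG0', hx', hg'⟩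
    exact (hc g g' G G' hg hg').mpr ((hiso ⟨G, hG0⟩ ⟨G', hG0'⟩).mp (hx.trans hx'.symm))
  have hR3 : ∀ g, ∃ x, R x g := fun g => by
    obtain ⟨G, hG0, hg⟩ := ha g
    exact ⟨cl ⟨G, hG0⟩, G, hG0, rfl, hg⟩
  have hR4 : ∀ x x' g, R x g → R x' g → x = x' := by
    rintro x x' g ⟨G, hG0, rfl, hg⟩ ⟨G', hG0', rfl, hg'⟩
    exact (hiso ⟨G, hG0⟩ ⟨G', hG0'⟩).mpr ((hc g g G G' hg hg').mp rfl)
  choose φ hφ using hR1
  have hφbij : Function.Bijective φ := by
    constructor
    · intro x x' h
      exact hR4 x x' (φ x) (hφ x) (h ▸ hφ x')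
    · intro g
      obtain ⟨x, hx⟩ := hR3 g
      exact ⟨x, hR2 x _ _ (hφ x) hx⟩
  have hφadd : ∀ x y, φ (x + y) = L.mul (specStr K K) (φ x) (φ y) := by
    intro x y
    obtain ⟨G, hG0, hx, hg⟩ := hφ x
    obtain ⟨G', hG0', hy, hg'⟩ := hφ y
    obtain ⟨G'', hG''⟩ := hT K (K ⊗[K] M.Ch.B₀) (K ⊗[K] M.Ch.B₁) (K ⊗[K] M.Ch.B₀₁) G G'
    obtain ⟨hG0'', hcl⟩ := hadd ⟨G, hG0⟩ ⟨G', hG0'⟩ G'' hG''
    have hcorr := htens (φ x) (φ y) G G' G'' hg hg' hG''
    refine hR2 (x + y) _ _ (hφ (x + y)) ⟨G'', hG0'', ?_, hcorr⟩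
    rw [hcl, hx, hy]
  refine ⟨L, hcomm, (Equiv.ofBijective φ hφbij).trans specStrPointEquiv.symm, fun x y => ?_⟩
  show specStrPointEquiv.symm (φ (x + y)) =
    L.mul (𝟙 _) (specStrPointEquiv.symm (φ x)) (specStrPointEquiv.symm (φ y))
  rw [hφadd, specStrPointEquiv_symm_mul]

/-- **JAC** from S25, the model, CONN, JAC-PTS and DIM-G. -/
theorem jac_of_bridge (hS25 : S25Stmt.{u}) (hM : Stmt.Model K F) (hC : Stmt.Conn K)
    (hJ : Stmt.JacPts K F) (hD : Stmt.DimG K F) : Stmt.Jac K F := by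
  intro _ _ _ _
  obtain ⟨M⟩ := hM
  obtain ⟨D, ⟨hrep⟩, hsm, hpr, hgc⟩ := hS25 K M.c M.ε
  obtain ⟨L, hcomm, pts, hadd⟩ := hJ M D hrep hsm hpr hgc
  have hdim := hD M D hrep hsm hpr hgc
  haveI : IsProper D.toBase := hpr
  haveI : GeometricallyConnected D.toBase := hgc
  exact ⟨{ J := D.P, f := D.toBase, law := L, comm := hcomm
           bundle := ⟨hsm, hpr, hC D.toBase ⟨D.zeroSection, D.zeroSection_toBase⟩, ⟨L⟩⟩
           smoothDim := hdim
           pts := pts
           pts_add := hadd }⟩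

end Adapters

section Result

/-- **S27 from S26 and the Jacobian package.** -/
theorem result_of_jac (hS26 : S26Stmt.{u})
    (hJ : ∀ (K F : Type u) [Field K] [Field F] [Algebra K F], Stmt.Jac K F)
    (K : Type u) (F : Type v) [Field K] [Field F] [Algebra K F] [IsAlgClosed K] [CharZero K]
    [IsCurveOver K F] [Algebra.EssFiniteType K F] (ℓ : ℕ) [Fact ℓ.Prime] (k : ℕ) :
    Nat.card (Pic0.torsion K F (ℓ ^ k)) = ℓ ^ (2 * genusFF K F * k) :=
  H190.s27_of_small
    (small_of_uniform fun K F _ _ _ => uniform_of_jac hS26 (hJ K F)) K F ℓ k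

/-- **S27 from the bridge leaves.** -/
theorem result_of_jacPts (hS25 : S25Stmt.{u}) (hS26 : S26Stmt.{u})
    (hA : ∀ (K F : Type u) [Field K] [Field F] [Algebra K F], Stmt.FFAlg K F)
    (hCS : ∀ (K : Type u) [Field K], Stmt.CurveScheme K)
    (hC : ∀ (K : Type u) [Field K], Stmt.Conn K)
    (hJ : ∀ (K F : Type u) [Field K] [Field F] [Algebra K F], Stmt.JacPts K F)
    (hD : ∀ (K F : Type u) [Field K] [Field F] [Algebra K F], Stmt.DimG K F)
    (K : Type u) (F : Type v) [Field K] [Field F] [Algebra K F] [IsAlgClosed K] [CharZero K]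
    [IsCurveOver K F] [Algebra.EssFiniteType K F] (ℓ : ℕ) [Fact ℓ.Prime] (k : ℕ) :
    Nat.card (Pic0.torsion K F (ℓ ^ k)) = ℓ ^ (2 * genusFF K F * k) :=
  result_of_jac hS26
    (fun K F _ _ _ => jac_of_bridge hS25 (model_of_blocks (hA K F) (hCS K)) (hC K) (hJ K F)
      (hD K F)) K F ℓ k

/-- **S27 from the leaves**, with the weak form of GRP. -/
theorem result_of_leavesK
    (hS25 : S25Stmt.{u}) (hS26 : S26Stmt.{u})
    (hT : Stmt.TensorExists.{u})
    (hA : ∀ (K F : Type u) [Field K] [Field F] [Algebra K F], Stmt.FFAlg K F)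
    (hCS : ∀ (K : Type u) [Field K], Stmt.CurveScheme K)
    (hG : ∀ (K : Type u) [Field K], Stmt.GrpK K)
    (hD : ∀ (K : Type u) [Field K], Stmt.Dim K)
    (hC : ∀ (K : Type u) [Field K], Stmt.Conn K)
    (hP : ∀ (K : Type u) [Field K], Stmt.PtsDict K)
    (hGen : ∀ (K F : Type u) [Field K] [Field F] [Algebra K F], Stmt.Genus K F)
    (hCl : ∀ (K F : Type u) [Field K] [Field F] [Algebra K F], Stmt.PicCl K F)
    (K : Type u) (F : Type v) [Field K] [Field F] [Algebra K F] [IsAlgClosed K] [CharZero K]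
    [IsCurveOver K F] [Algebra.EssFiniteType K F] (ℓ : ℕ) [Fact ℓ.Prime] (k : ℕ) :
    Nat.card (Pic0.torsion K F (ℓ ^ k)) = ℓ ^ (2 * genusFF K F * k) :=
  result_of_jacPts hS25 hS26 hA hCS hC
    (fun K F _ _ _ => jacPts_of_blocks (hG K) (hCl K F) (hP K) hT)
    (fun K F _ _ _ => dimG_of_dim (hD K) (hGen K F)) K F ℓ k

end Result

end

end Fermat.Agent.S27
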